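import Fermat.Agent.S29.DefsM
import Fermat.Agent.S29.HI
import Fermat.Agent.S29.H801.M1NC
import Fermat.Agent.S29.H801.M1LG

/-!
# S29, layer M, piece `M1` (helper801): exact `SkeletonM` statement

`heckeOperatorsCommuteBar : HeckeOperatorsCommuteBar N` — the Prelude Hecke operators
`heckeOperatorBar N ℓ` on `J₀(N)(ℚ̄) = Pic⁰(ℚ̄(X₀(N)))` commute.  This is the hypothesis `hcomm`
of the frozen statement S37.

Purely algebraic proof (no places ↔ points dictionary): both `T_ℓ T_ℓ'` and `T_ℓ' T_ℓ` are the
correspondence through the common cover `F_{Nℓℓ'}`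
(`H801.pic0_correspondence_comm`, on top of helper818's base-change lemma), with inputs
* `HI` at all levels (helper812 / helper864 / helper460),
* local generators from weak approximation (shared library RR, helper623),
* norm compatibility of the mixed square from `F_{Nℓℓ'} = F_{Nℓ} ⊔ V_ℓ(F_{Nℓ'})` and
  `[F_{Nℓℓ'} : F_{Nℓ}] = [F_{Nℓ'} : F_N]` (shared library X0DEG, helper760).
-/

set_option autoImplicit false
set_option linter.style.haveILetI false

noncomputable section

namespace Fermat.Agent.S29

open ModularCurve AlgebraicCurve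

/-- All inputs of the commutation theorem hold over `ℚ̄`. -/
theorem H801.m1Inputs_bar : H801.M1Inputs (AlgebraicClosure ℚ) where
  hi := fun M ℓ _ _ hℓ => heckeInputsAlong_bar M ℓ hℓ
  lg := fun M ℓ _ _ hℓ hα => by
    obtain ⟨_, _, hP, _, _, _⟩ := heckeInputsAlong_bar M ℓ hℓ
    haveI := hP
    exact H801.hasLocalGenerators_of_hasPrincipalDivisors _ hα
  nc := fun N ℓ ℓ' _ _ _ hℓ hℓ' hne => H801.normCompat_bar N ℓ ℓ' hℓ hℓ' hne

variable (N : ℕ) [NeZero N]

/-- PIECE `M1`: Hecke operators on `J₀(N)(ℚ̄)` commute. -/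
theorem heckeOperatorsCommuteBar : HeckeOperatorsCommuteBar N :=
  H801.heckeOperatorsCommuteBar_of_inputs H801.m1Inputs_bar N

end Fermat.Agent.S29

end
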