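/-
S29 row — GATE (row-lead helper269): the frozen statement S29 from the S18 hub ALONE.

* `m4bStatement : M4bStatement`  — the Kummer bridge, UNCONDITIONAL (K1 `H509`, K2 `H389`,
  K3 `M4b.K3.pieceK3`, K4 `M4b.H822` / `M4b.H395`);
* `S29_of_corePrime : CorePrimeFamily → <frozen S29>`;
* `S29_of_nodes : node_mod → node_alg → <frozen S29>`  (the two open nodes of the S18 skeleton, in
  the exact shapes of `S18/H694/CoreFamilyOfNodes.lean`).
-/
import Fermat.Agent.S29.Reduce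
import Fermat.Agent.S29.M4b.K3.Piece
import Fermat.Agent.S18.H694.CoreFamilyOfNodes

set_option autoImplicit false

namespace Fermat.Agent.S29

open CuspForm CuspForm.IsNormalizedEigenform
open Fermat.Agent.S18 (Qb CoreStatement)

/-- **The Kummer bridge (piece M4b), unconditional.** -/
theorem m4bStatement : M4bStatement :=
  m4bStatement_of_K3 fun N _ p hp =>
    haveI : NeZero p := ⟨hp.ne_zero⟩
    M4b.K3.pieceK3 N p

/-- **The frozen statement S29 from the S18 hub (prime moduli).** -/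
theorem S29_of_corePrime (hcore : CorePrimeFamily)
    {N : ℕ} {g : CuspForm (CongruenceSubgroup.Gamma0 N) 2} (hg : g.IsNormalizedEigenform)
    {p : ℕ} (hp : p.Prime) {k : Type} [Field k] [CharP k p]
    (φ : integralClosure ℤ ℂ →+* k) :
    ∃ ρ : ResidualGaloisRep k, ρ.IsAttachedTo g φ ∧
      ∀ ℓ : ℕ, ℓ.Prime → ¬ ℓ ∣ N * p → ρ.IsUnramifiedAt ℓ :=
  S29_of_parts Fermat.Agent.Lib.Cheb.frobeniusDivision (rawES_of_corePrime hcore) M4a_statement
    m4bStatement hCohStatement hg hp φ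

/-- The S18 hub for prime moduli from the two open nodes of the S18 skeleton. -/
theorem corePrimeFamily_of_nodes
    (node_mod : ∀ (M : ℕ) [NeZero M] {ℓ : ℕ} [Fact ℓ.Prime], ¬ ℓ ∣ M →
      ∀ A : ValuationSubring Qb, A.LiesOverPrime ℓ → Fermat.Agent.S18.Mod.GoodModelStatement M ℓ A)
    (node_alg : ∀ M : ℕ, Fermat.Agent.S18.Mod.AlgStatement M) : CorePrimeFamily := by
  intro N _ ℓ p hℓ hp hℓN hℓp A hA
  have hdvd : ¬ ℓ ∣ p := fun h => hℓp ((Nat.prime_dvd_prime_iff_eq hℓ hp).mp h)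
  exact Fermat.Agent.S18.H694.coreFamily_of_nodes node_mod node_alg N ℓ hℓ hℓN p hdvd A hA

/-- **The frozen statement S29 from the two open nodes of row S18.** -/
theorem S29_of_nodes
    (node_mod : ∀ (M : ℕ) [NeZero M] {ℓ : ℕ} [Fact ℓ.Prime], ¬ ℓ ∣ M →
      ∀ A : ValuationSubring Qb, A.LiesOverPrime ℓ → Fermat.Agent.S18.Mod.GoodModelStatement M ℓ A)
    (node_alg : ∀ M : ℕ, Fermat.Agent.S18.Mod.AlgStatement M)
    {N : ℕ} {g : CuspForm (CongruenceSubgroup.Gamma0 N) 2} (hg : g.IsNormalizedEigenform)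
    {p : ℕ} (hp : p.Prime) {k : Type} [Field k] [CharP k p]
    (φ : integralClosure ℤ ℂ →+* k) :
    ∃ ρ : ResidualGaloisRep k, ρ.IsAttachedTo g φ ∧
      ∀ ℓ : ℕ, ℓ.Prime → ¬ ℓ ∣ N * p → ρ.IsUnramifiedAt ℓ :=
  S29_of_corePrime (corePrimeFamily_of_nodes node_mod node_alg) hg hp φ

end Fermat.Agent.S29
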