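import Fermat.Agent.S29.DefsM
import Fermat.Agent.S29.H149.HCoh

/-!
# S29 layer M, piece `HCoh` (wrapper with the exact skeleton statement; proof in `H149/HCoh.lean`)
-/

set_option autoImplicit false

noncomputable section

namespace Fermat.Agent.S29

open ModularCurve AlgebraicCurve Polynomial
open scoped TensorProduct

section

variable (N : ℕ) [NeZero N]

/-- PIECE `HCoh` (pure group theory): for a prime `ℓ ∤ N` the factorisation `heckeFac` exists, is
unique, permutes the index set, and `heckeCoh` preserves parabolic characters. -/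
theorem isParHom_heckeCoh {ℓ : ℕ} (hℓ : ℓ.Prime) (hℓN : ¬ ℓ ∣ N) {A : Type*} [AddCommGroup A]
    {c : G0 N → A} (hc : IsParHom c) : IsParHom (heckeCoh N ℓ c) :=
  H149.isParHom_heckeCoh hℓ hℓN hc

end

end Fermat.Agent.S29
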