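/-
S29 layer M, SUB-LAYER `M4a` (helper391): `exists_eigen_parHom`, EXACT statement of
`SkeletonM.lean` (row-lead helper269).

Proof = helper201's E2 layer on main (`H201.exists_eigen_parabolicHom_strong`: nonzero parabolic
character `χ : Γ₀(N) → F` killing finite-order elements, with `T_ℓ χ = ψ(a_ℓ) χ`) + the adapter
`M4a/Top.lean` (finite generation of `Γ₀(N)` ⇒ `𝔽_p`-coordinates; `H201.trf` = `heckeFac`).
-/
import Fermat.Agent.S29.M4a.Top
import Fermat.Agent.S29.H201.E2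
import Fermat.Agent.S29.Parts

set_option autoImplicit false

noncomputable section

namespace Fermat.Agent.S29

open ModularCurve AlgebraicCurve Polynomial
open scoped TensorProduct

section

variable (N : ℕ) [NeZero N]

/-- SUB-LAYER `M4a`: the eigensystem of `g` modulo `ψ` occurs in the parabolic cohomology
`Hom_par(Γ₀(N), 𝔽_p) ⊗ F`, written in coordinates: finitely many parabolic characters `c j` with
`𝔽_p`-linearly independent coefficients `w j ∈ F`. -/
theorem exists_eigen_parHom {g : CuspForm (CongruenceSubgroup.Gamma0 N) 2}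
    (hg : g.IsNormalizedEigenform) {p : ℕ} [Fact p.Prime] {F : Type} [Field F] [IsAlgClosed F]
    [CharP F p] [Algebra (ZMod p) F]
    (ψ : integralClosure ℤ ℂ →+* F) (a : ℕ → integralClosure ℤ ℂ)
    (ha : ∀ ℓ : ℕ, ℓ.Prime → ¬ ℓ ∣ N →
      ((a ℓ : integralClosure ℤ ℂ) : ℂ) = ModularFormClass.qCoeff g ℓ) :
    ∃ (n : ℕ) (w : Fin n → F) (c : Fin n → G0 N → ZMod p),
      LinearIndependent (ZMod p) w ∧ (∀ j, IsParHom (c j)) ∧ (∃ j, c j ≠ 0) ∧
      ∀ ℓ : ℕ, ℓ.Prime → ¬ ℓ ∣ N * p → ∀ γ : G0 N,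
        ∑ j, w j * algebraMap (ZMod p) F (heckeCoh N ℓ (c j) γ)
          = ψ (a ℓ) * ∑ j, w j * algebraMap (ZMod p) F (c j γ) := by
  refine M4aTop_exists_eigen_parHom N ψ a ha ?_
  obtain ⟨χ, hχ0, hpar, -, hfin, hecke⟩ := H201.exists_eigen_parabolicHom_strong hg p ψ
  exact ⟨χ, hχ0, hpar,
    fun γ n hn hγ => hfin γ (isOfFinOrder_iff_pow_eq_one.mpr ⟨n, hn, hγ⟩), hecke⟩

end

/-- PIECE `M4a` in the `Prop` form consumed by `Main.lean` (`S29_of_parts`). -/
theorem M4a_statement : M4aStatement :=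
  fun N _ _ hg _ _ _ _ _ _ _ ψ a ha => exists_eigen_parHom N hg ψ a ha

end Fermat.Agent.S29
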