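/-
S29 row, PIECE `Orb` (helper449): exact skeleton statement `exists_finite_stable_submodule`,
proved in `Fermat/Agent/S29/H449/Orb.lean`.
-/
import Fermat.Agent.S29.Defs
import Fermat.Agent.S29.H449.Orb

set_option autoImplicit false

namespace Fermat.Agent.S29

/-- PIECE `Orb` (a smooth nonzero module contains a nonzero finite-dimensional stable subspace on
which an open subgroup acts trivially). -/
theorem exists_finite_stable_submodule {F : Type} [Field F] {M : Type} [AddCommGroup M]
    [Module F M] [Nontrivial M] (ρ : GQ →* Module.End F M) (hsm : IsSmoothRep ρ) :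
    ∃ W : Submodule F M, W ≠ ⊥ ∧ Module.Finite F W ∧ (∀ σ : GQ, ∀ x ∈ W, ρ σ x ∈ W) ∧
      ∃ L : IntermediateField ℚ (AlgebraicClosure ℚ), FiniteDimensional ℚ L ∧
        ∀ σ : GQ, (∀ y ∈ L, σ y = y) → ∀ x ∈ W, ρ σ x = x :=
  H449.exists_finite_stable_submodule ρ hsm

end Fermat.Agent.S29
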