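/-
S29 row — FINAL CHAIN (row-lead helper269), complete proof:

  `S29_of_parts : FrobeniusDivisionStatement → RawESStatement → M4aStatement → M4bStatement →
      HCohStatement → (frozen S29 statement)`.

Uses (all complete): layer A `H872.result_of_module` (helper872), `Orb` (helper449),
layer M assembly `H42.hasFrobModule_of_raw` (helper42; contains GEQ + SMOOTH), `M4c` (helper92),
integrality `H642.isIntegral_qCoeff` (helper642).
-/
import Fermat.Agent.S29.Parts
import Fermat.Agent.S29.M4c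
import Fermat.Agent.S29.Orb
import Fermat.Agent.S29.H42.MLayer
import Fermat.Agent.S29.H872.Final
import Fermat.Agent.S29.H642.EigenChar
import Fermat.Agent.Lib.Cheb.Spec

set_option autoImplicit false
set_option linter.style.haveILetI false

noncomputable section

namespace Fermat.Agent.S29

open ModularCurve AlgebraicCurve Polynomial
open scoped TensorProduct

/-! ### (1) Weak Chebotarev from CHEB Tier 1 -/

theorem Main_weakCheb (h : Fermat.Agent.Lib.Cheb.Spec.FrobeniusDivisionStatement) :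
    H872.WeakCheb := by
  intro s σ S
  have hfd : FiniteDimensional ℚ
      (IntermediateField.adjoin ℚ ((s : Set (AlgebraicClosure ℚ)))) :=
    IntermediateField.finiteDimensional_adjoin
      (fun x _ => (AlgebraicClosure.isAlgebraic ℚ).isIntegral.isIntegral x)
  obtain ⟨ℓ, A, τ, _, j, hℓ, hℓS, hA, hτ, _, _, hj⟩ := h _ hfd σ S
  exact ⟨ℓ, A, τ, j, hℓ, hℓS, hA, hτ,
    fun x hx => hj x (IntermediateField.subset_adjoin ℚ _ hx)⟩

/-! ### (2) Transport of the eigenclass from `Jp N p` to `H42.JTors N p` -/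

section Transport

variable (N p : ℕ) [NeZero N]

/-- The two incarnations of `J₀(N)[p]` agree. -/
def Main_equiv : Jp N p ≃ₗ[ℤ] H42.JTors N p where
  toFun x := ⟨(x : JZero N), Pic0.mem_torsion.mpr ((Submodule.mem_torsionBy_iff _ _).mp x.2)⟩
  invFun y := ⟨(y : JZero N), (Submodule.mem_torsionBy_iff _ _).mpr (Pic0.mem_torsion.mp y.2)⟩
  map_add' _ _ := rfl
  map_smul' _ _ := rfl
  left_inv _ := rfl
  right_inv _ := rfl

theorem Main_equiv_hecke {ℓ : ℕ} (hℓ : ℓ.Prime) :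
    (H42.heckeTors N p ℓ) ∘ₗ (Main_equiv N p).toLinearMap
      = (Main_equiv N p).toLinearMap ∘ₗ heckeJp N p ⟨ℓ, hℓ⟩ := by
  ext x
  rw [LinearMap.comp_apply, LinearMap.comp_apply, H42.coe_heckeTors_apply N p hℓ]
  rfl

theorem Main_occ {F : Type} [Field F] (t : ℕ → F)
    (h : ∃ x : F ⊗[ℤ] Jp N p, x ≠ 0 ∧ ∀ ℓ : Nat.Primes, ¬ (ℓ : ℕ) ∣ N * p →
      (heckeJp N p ℓ).baseChange F x = t ℓ • x) :
    ∃ v : F ⊗[ℤ] H42.JTors N p, v ≠ 0 ∧
      ∀ ℓ : ℕ, ℓ.Prime → ¬ ℓ ∣ N * p → (H42.heckeTors N p ℓ).baseChange F v = t ℓ • v := by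
  obtain ⟨x, hx0, hx⟩ := h
  refine ⟨(Main_equiv N p).toLinearMap.baseChange F x, ?_, ?_⟩
  · intro h0
    apply hx0
    have h1 : ((Main_equiv N p).symm.toLinearMap.baseChange F)
        (((Main_equiv N p).toLinearMap.baseChange F) x) = x := by
      rw [← LinearMap.comp_apply, ← LinearMap.baseChange_comp]
      have : (Main_equiv N p).symm.toLinearMap ∘ₗ (Main_equiv N p).toLinearMap
          = LinearMap.id := by
        ext y; rfl
      rw [this, LinearMap.baseChange_id, LinearMap.id_apply]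
    rw [← h1, h0, map_zero]
  · intro ℓ hℓ hℓS
    rw [← LinearMap.comp_apply, ← LinearMap.baseChange_comp, Main_equiv_hecke N p hℓ,
      LinearMap.baseChange_comp, LinearMap.comp_apply, hx ⟨ℓ, hℓ⟩ hℓS, map_smul]

end Transport

/-! ### (3) Layer M : the Frobenius module -/

theorem Main_hasFrobModule (hES : RawESStatement) (hA : M4aStatement) (hB : M4bStatement)
    (hH : HCohStatement) {N : ℕ} [NeZero N]
    {g : CuspForm (CongruenceSubgroup.Gamma0 N) 2} (hg : g.IsNormalizedEigenform)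
    {p : ℕ} (hp : p.Prime) {F : Type} [Field F] [IsAlgClosed F] [CharP F p]
    (ψ : integralClosure ℤ ℂ →+* F) (a : ℕ → integralClosure ℤ ℂ)
    (ha : ∀ ℓ : ℕ, ℓ.Prime → ¬ ℓ ∣ N →
      ((a ℓ : integralClosure ℤ ℂ) : ℂ) = ModularFormClass.qCoeff g ℓ) :
    HasFrobModule F (N * p) (fun ℓ => ψ (a ℓ)) := by
  have hocc := M4c_exists_eigenclass_of N hp (fun ℓ => ψ (a ℓ))
    (fun _ _ => hA N g hg p F ψ a ha) (fun _ => hB N p)
    (fun ℓ hℓ hℓN c hc => hH N p ℓ hℓ hℓN c hc)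
  refine H42.hasFrobModule_of_raw N hp (fun ℓ => ψ (a ℓ)) ?_ ?_ (Main_occ N p _ hocc)
  · intro ℓ hℓ hS V hV σ hσ x hx
    exact (hES N p hp ℓ hℓ hS V hV).1 σ hσ x hx
  · intro ℓ hℓ hS V hV σ hσ x hx
    exact (hES N p hp ℓ hℓ hS V hV).2 σ hσ x hx

/-! ### (4) From a smooth Frobenius module to `H872.ModHyp` -/

theorem Main_modHyp {N : ℕ} [NeZero N]
    {g : CuspForm (CongruenceSubgroup.Gamma0 N) 2} {p : ℕ}
    {F : Type} [Field F] (ψ : integralClosure ℤ ℂ →+* F) (a : ℕ → integralClosure ℤ ℂ)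
    (ha : ∀ ℓ : ℕ, ℓ.Prime → ¬ ℓ ∣ N →
      ((a ℓ : integralClosure ℤ ℂ) : ℂ) = ModularFormClass.qCoeff g ℓ)
    (h : HasFrobModule F (N * p) (fun ℓ => ψ (a ℓ))) : H872.ModHyp g p ψ := by
  obtain ⟨M, _, _, ρ, hnt, hsm, hur, hfq⟩ := h
  obtain ⟨W, hW0, hWfin, hWst, L, hL, hLfix⟩ := exists_finite_stable_submodule ρ hsm
  let r : GQ →* Module.End F W :=
    { toFun := fun σ => (ρ σ).restrict (hWst σ)
      map_one' := by
        ext x
        simp
      map_mul' := fun σ τ => by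
        ext x
        simp [LinearMap.restrict_apply] }
  have hr : ∀ (σ : GQ) (x : W), ((r σ x : W) : M) = ρ σ (x : M) := fun _ _ => rfl
  haveI : Nontrivial W := (Submodule.nontrivial_iff_ne_bot).mpr hW0
  refine ⟨W, inferInstance, inferInstance, hWfin, inferInstance, r, ⟨L, hL, ?_⟩, ?_, ?_⟩
  · intro σ hσ
    ext x
    rw [hr, hLfix σ hσ x x.2]
    rfl
  · intro ℓ hℓ hS A hA σ hσ
    ext x
    rw [hr, hur ℓ hℓ hS A hA σ hσ]
    rfl
  · intro ℓ hℓ hS
    have hℓN : ¬ ℓ ∣ N := fun hd => hS (Dvd.dvd.mul_right hd p)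
    refine ⟨a ℓ, ha ℓ hℓ hℓN, fun A hA σ hσ => ?_⟩
    have h0 := hfq ℓ hℓ hS A hA σ hσ
    ext x
    have h1 := congrArg (fun f : Module.End F M => f (x : M)) h0
    simp only [LinearMap.add_apply, LinearMap.sub_apply, Module.End.mul_apply,
      LinearMap.smul_apply, Module.End.one_apply, LinearMap.zero_apply] at h1
    simp only [LinearMap.sub_apply, Module.End.mul_apply, LinearMap.smul_apply,
      Module.End.one_apply, Submodule.coe_sub, Submodule.coe_smul, hr]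
    rw [sub_add_eq_add_sub, sub_eq_zero] at h1
    rw [eq_sub_iff_add_eq, h1]

/-! ### (5) The frozen statement S29 from the remaining inputs -/

theorem S29_of_parts (hfrob : Fermat.Agent.Lib.Cheb.Spec.FrobeniusDivisionStatement)
    (hES : RawESStatement) (hA : M4aStatement) (hB : M4bStatement) (hH : HCohStatement)
    {N : ℕ} {g : CuspForm (CongruenceSubgroup.Gamma0 N) 2} (hg : g.IsNormalizedEigenform)
    {p : ℕ} (hp : p.Prime) {k : Type} [Field k] [CharP k p]
    (φ : integralClosure ℤ ℂ →+* k) :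
    ∃ ρ : ResidualGaloisRep k, ρ.IsAttachedTo g φ ∧
      ∀ ℓ : ℕ, ℓ.Prime → ¬ ℓ ∣ N * p → ρ.IsUnramifiedAt ℓ := by
  refine H872.result_of_module hp φ (Main_weakCheb hfrob) ?_
  intro hN F _ _ _ ψ
  haveI : NeZero N := ⟨hN⟩
  classical
  let a : ℕ → integralClosure ℤ ℂ := fun ℓ =>
    if h : ℓ.Prime ∧ ¬ ℓ ∣ N then ⟨ModularFormClass.qCoeff g ℓ, H642.isIntegral_qCoeff hg h.1 h.2⟩
    else 0
  have ha : ∀ ℓ : ℕ, ℓ.Prime → ¬ ℓ ∣ N →
      ((a ℓ : integralClosure ℤ ℂ) : ℂ) = ModularFormClass.qCoeff g ℓ := by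
    intro ℓ hℓ hℓN
    simp only [a, dif_pos (And.intro hℓ hℓN)]
  exact Main_modHyp ψ a ha (Main_hasFrobModule hES hA hB hH hg hp ψ a ha)

end Fermat.Agent.S29
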