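/-
S29 row — the external input `RawESStatement` reduced to the S18 hub (row-lead helper269).

`rawES_of_core : CorePrimeFamily → H222.PGIFamily → RawESStatement`
`rawES_of_corePrime : CorePrimeFamily → RawESStatement`   (PGI = landed `S37.H98.gen`)

* `CorePrimeFamily` : `S18.CoreStatement N A p` for PRIMES `p ≠ ℓ`, `ℓ ∤ N`, `A` over `ℓ`
  (row S18; only prime moduli are needed for S29/S42);
* `H222.PGIFamily`  : Prelude `PrincipalGeneratedByIntegral A (residue A) N` for `ℓ ∤ N`.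

The other two inputs of helper222's `ESK` are on main: `HI` (`heckeInputsAlong_bar`) and
`NORM-ID` (`S37.H819.normId`).
-/
import Fermat.Agent.S29.Parts
import Fermat.Agent.S29.H222.ESKFamily
import Fermat.Agent.S29.HI
import Fermat.Agent.S37.H819.NormId
import Fermat.Agent.S37.H98.Gen

set_option autoImplicit false

noncomputable section

namespace Fermat.Agent.S29

open ModularCurve AlgebraicCurve
open Fermat.Agent.S18 (Qb CoreStatement)

/-- Row S18: the Kummer core `CoreStatement N A p` for primes `p ≠ ℓ`, `ℓ ∤ N`, `A` over `ℓ`. -/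
def CorePrimeFamily : Prop :=
  ∀ (N : ℕ) [NeZero N] (ℓ p : ℕ), ℓ.Prime → p.Prime → ¬ ℓ ∣ N → ℓ ≠ p →
    ∀ A : ValuationSubring Qb, A.LiesOverPrime ℓ → CoreStatement N A p

/-- **RAW Eichler–Shimura from the S18 hub.** -/
theorem rawES_of_core (hcore : CorePrimeFamily) (hpgi : H222.PGIFamily) : RawESStatement := by
  intro N p _ hp ℓ hℓ hℓNp A hA
  haveI : NeZero ℓ := ⟨hℓ.ne_zero⟩
  have hℓN : ¬ ℓ ∣ N := fun h => hℓNp (Dvd.dvd.mul_right h p)
  have hℓp : ℓ ≠ p := fun h => hℓNp (h ▸ Dvd.intro_left N rfl)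
  have hC := hcore N ℓ p hℓ hp hℓN hℓp A hA
  have hP := hpgi N ℓ hℓ hℓN A hA
  refine ⟨fun σ hσ x hx => ?_, fun σ hσ x hx => ?_⟩
  · exact H222.esk_inertia N p hp.ne_zero A hC hP σ hσ x hx
  · exact H222.esk_frob N ℓ hℓ p hp.ne_zero A hA hC hP (heckeInputsAlong_bar N ℓ hℓ)
      (fun y => Fermat.Agent.S37.H819.normId N ℓ hℓ hℓN y) σ hσ x hx

/-- `PGI` is a theorem (landed `S37.H98.gen`). -/
theorem pgiFamily : H222.PGIFamily :=
  fun N _ ℓ hℓ hℓN A hA => Fermat.Agent.S37.H98.gen N ℓ hℓ hℓN A hA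

/-- **RAW Eichler–Shimura from the S18 hub alone** (prime moduli). -/
theorem rawES_of_corePrime (hcore : CorePrimeFamily) : RawESStatement :=
  rawES_of_core hcore pgiFamily

end Fermat.Agent.S29
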