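/-
S29 row — FINAL REDUCTION (row-lead helper269): the frozen statement S29 from the TWO inputs that
are still open,

* `CorePrimeFamily` (row S18): `S18.CoreStatement N A p` for primes `p ≠ ℓ`, `ℓ ∤ N`, `A | ℓ`;
* `PieceK3 N p` (M4b, descent `ℂ → ℚ̄`) for all levels `N` and primes `p`.

Everything else is on main: CHEB Tier 1 (`Lib.Cheb.frobeniusDivision`), `M4a_statement`, `HCoh`,
`HI`, NORM-ID (`S37.H819.normId`), PGI (`S37.H98.gen`), ESK (`H222`), and the M4b pieces
K1 (`H509`), K2 (`H389`), K4-UNIQ/INJ/ADD (`M4b.H822`), K4-HECKE (`M4b.H395`).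
-/
import Fermat.Statements.S29
import Fermat.Agent.S29.Main
import Fermat.Agent.S29.M4a
import Fermat.Agent.S29.HCoh
import Fermat.Agent.S29.RawESCore
import Fermat.Agent.S29.M4b.H822.K4
import Fermat.Agent.S29.M4b.H395.Hecke
import Fermat.Agent.S29.H389.K2Piece
import Fermat.Agent.S29.H509.K1
import Fermat.Agent.Lib.Cheb.FrobeniusDivision

set_option autoImplicit false

namespace Fermat.Agent.S29

open CuspForm CuspForm.IsNormalizedEigenform

/-- PIECE `HCoh` as the `Prop` of `Parts.lean`. -/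
theorem hCohStatement : HCohStatement :=
  fun N _ _ _ hℓ hℓN _ hc => isParHom_heckeCoh N hℓ hℓN hc

/-- PIECE `K1` in the shape of `M4b/Top.lean`. -/
theorem pieceK1 (N : ℕ) [NeZero N] (p : ℕ) (hp : p ≠ 0) : M4b.PieceK1 N p := by
  haveI : NeZero p := ⟨hp⟩
  intro c hc
  exact H509.exists_isTwisted N p hc

/-- The Kummer bridge from piece `K3` alone. -/
theorem m4bStatement_of_K3
    (h3 : ∀ (N : ℕ) [NeZero N] (p : ℕ), p.Prime → M4b.PieceK3 N p) : M4bStatement :=
  M4b.H822.m4bStatement_of_four (fun N _ p hp => pieceK1 N p hp.ne_zero) h3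
    (fun N _ p hp => H389.pieceK2_prime N p hp) (fun N _ p hp => M4b.H395.pieceHecke N p hp)

/-- **The frozen statement S29 from the S18 hub and piece K3.** -/
theorem S29_of_core_K3 (hcore : CorePrimeFamily)
    (h3 : ∀ (N : ℕ) [NeZero N] (p : ℕ), p.Prime → M4b.PieceK3 N p)
    {N : ℕ} {g : CuspForm (CongruenceSubgroup.Gamma0 N) 2} (hg : g.IsNormalizedEigenform)
    {p : ℕ} (hp : p.Prime) {k : Type} [Field k] [CharP k p]
    (φ : integralClosure ℤ ℂ →+* k) :
    ∃ ρ : ResidualGaloisRep k, ρ.IsAttachedTo g φ ∧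
      ∀ ℓ : ℕ, ℓ.Prime → ¬ ℓ ∣ N * p → ρ.IsUnramifiedAt ℓ :=
  S29_of_parts Fermat.Agent.Lib.Cheb.frobeniusDivision (rawES_of_corePrime hcore) M4a_statement
    (m4bStatement_of_K3 h3) hCohStatement hg hp φ

end Fermat.Agent.S29
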