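/-
S29 row, PIECE `M4c` (helper92): linear algebra of the eigenclass.

* `M4c_tensor_ne_zero`  : `w j` linearly independent over `𝔽_p`, `κ` additive and injective on a
  class `P` of characters, some `c j ≠ 0`  ⟹  `∑ j, w j ⊗ κ (c j) ≠ 0` in `F ⊗[ℤ] V`.
* `M4c_tensor_eigen`    : a pointwise identity `∑ j, w j * c' j γ = t * ∑ j, w j * c j γ` in `F`
  ⟹  `∑ j, w j ⊗ κ (c' j) = t • ∑ j, w j ⊗ κ (c j)`.
* `M4c_exists_eigenclass_of` : the Skeleton statement `exists_eigenclass`, with the conclusions of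
  the pieces `M4a`, `M4b`, `HCoh` as hypotheses.
-/
import Fermat.Agent.S29.DefsM

set_option autoImplicit false

noncomputable section

namespace Fermat.Agent.S29

open ModularCurve AlgebraicCurve
open scoped TensorProduct

section Abstract

variable {p : ℕ} [Fact p.Prime] {F : Type*} [Field F] [Algebra (ZMod p) F]
  {V : Type*} [AddCommGroup V] [Module (ZMod p) V] {Γ : Type*}

/-- `𝔽_p`-scalars move across `⊗[ℤ]`. -/
theorem M4c_smul_tmul (r : ZMod p) (f : F) (v : V) :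
    (r • f) ⊗ₜ[ℤ] v = f ⊗ₜ[ℤ] (r • v) := by
  have h1 : r • f = ((r.val : ℤ)) • f := by
    conv_lhs => rw [← ZMod.natCast_zmod_val r]
    rw [Nat.cast_smul_eq_nsmul, natCast_zsmul]
  have h2 : r • v = ((r.val : ℤ)) • v := by
    conv_lhs => rw [← ZMod.natCast_zmod_val r]
    rw [Nat.cast_smul_eq_nsmul, natCast_zsmul]
  rw [h1, h2, TensorProduct.smul_tmul]

/-- Coordinates: `f ⊗ v = ∑ i ∈ S, b i ⊗ (coord_i f • v)` for `S ⊇ supp f`. -/
theorem M4c_tmul_eq_sum {ι : Type*} (b : Module.Basis ι (ZMod p) F) (f : F) (v : V)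
    (S : Finset ι) (hS : (b.repr f).support ⊆ S) :
    f ⊗ₜ[ℤ] v = ∑ i ∈ S, b i ⊗ₜ[ℤ] ((b.repr f i) • v) := by
  classical
  have hf : f = ∑ i ∈ S, (b.repr f i) • b i := by
    conv_lhs => rw [← b.linearCombination_repr f]
    rw [Finsupp.linearCombination_apply, Finsupp.sum]
    refine Finset.sum_subset hS ?_
    intro i _ hi
    rw [Finsupp.notMem_support_iff.1 hi, zero_smul]
  conv_lhs => rw [hf]
  rw [TensorProduct.sum_tmul]
  refine Finset.sum_congr rfl fun i _ => ?_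
  rw [M4c_smul_tmul]

variable (P : (Γ → ZMod p) → Prop) (κ : (Γ → ZMod p) → V)

/-- `κ` is `𝔽_p`-linear on finite combinations of characters in `P`. -/
theorem M4c_kappa_sum
    (hP0 : P 0) (hPadd : ∀ c c', P c → P c' → P (c + c'))
    (hκadd : ∀ c c', P c → P c' → κ (c + c') = κ c + κ c')
    {n : ℕ} (c : Fin n → Γ → ZMod p) (hc : ∀ j, P (c j)) (r : Fin n → ZMod p) :
    P (∑ j, r j • c j) ∧ κ (∑ j, r j • c j) = ∑ j, r j • κ (c j) := by
  classical
  have hκ0 : κ 0 = 0 := by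
    have := hκadd 0 0 hP0 hP0
    rw [add_zero] at this
    exact left_eq_add.mp this
  -- natural multiples
  have hnat : ∀ (m : ℕ) (d : Γ → ZMod p), P d → P (m • d) ∧ κ (m • d) = m • κ d := by
    intro m d hd
    induction m with
    | zero => simpa using ⟨hP0, hκ0⟩
    | succ m ih =>
      rw [succ_nsmul, succ_nsmul]
      exact ⟨hPadd _ _ ih.1 hd, by rw [hκadd _ _ ih.1 hd, ih.2]⟩
  have hsmul : ∀ (s : ZMod p) (d : Γ → ZMod p), P d → P (s • d) ∧ κ (s • d) = s • κ d := by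
    intro s d hd
    have h1 : s • d = s.val • d := by
      conv_lhs => rw [← ZMod.natCast_zmod_val s]
      rw [Nat.cast_smul_eq_nsmul]
    have h2 : s • κ d = s.val • κ d := by
      conv_lhs => rw [← ZMod.natCast_zmod_val s]
      rw [Nat.cast_smul_eq_nsmul]
    rw [h1, h2]
    exact hnat _ d hd
  -- finite sums
  have hsum : ∀ T : Finset (Fin n),
      P (∑ j ∈ T, r j • c j) ∧ κ (∑ j ∈ T, r j • c j) = ∑ j ∈ T, r j • κ (c j) := by
    intro T
    induction T using Finset.induction_on with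
    | empty => simpa using ⟨hP0, hκ0⟩
    | insert j T hj ih =>
      rw [Finset.sum_insert hj, Finset.sum_insert hj]
      have hj' := hsmul (r j) (c j) (hc j)
      exact ⟨hPadd _ _ hj'.1 ih.1, by rw [hκadd _ _ hj'.1 ih.1, hj'.2, ih.2]⟩
  exact hsum Finset.univ

/-- The eigen-identity passes from values to `F ⊗ V`. -/
theorem M4c_tensor_eigen
    (hP0 : P 0) (hPadd : ∀ c c', P c → P c' → P (c + c'))
    (hκadd : ∀ c c', P c → P c' → κ (c + c') = κ c + κ c')
    {n : ℕ} (w : Fin n → F) (c c' : Fin n → Γ → ZMod p)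
    (hc : ∀ j, P (c j)) (hc' : ∀ j, P (c' j)) (t : F)
    (hid : ∀ γ : Γ, ∑ j, w j * algebraMap (ZMod p) F (c' j γ)
      = t * ∑ j, w j * algebraMap (ZMod p) F (c j γ)) :
    (∑ j, w j ⊗ₜ[ℤ] κ (c' j) : F ⊗[ℤ] V) = t • ∑ j, w j ⊗ₜ[ℤ] κ (c j) := by
  classical
  let b := Module.Free.chooseBasis (ZMod p) F
  let S : Finset (Module.Free.ChooseBasisIndex (ZMod p) F) :=
    (Finset.univ.biUnion fun j => (b.repr (w j)).support) ∪
      (Finset.univ.biUnion fun j => (b.repr (t * w j)).support)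
  have hS1 : ∀ j, (b.repr (w j)).support ⊆ S := fun j =>
    (Finset.subset_biUnion_of_mem (fun j => (b.repr (w j)).support) (Finset.mem_univ j)).trans
      Finset.subset_union_left
  have hS2 : ∀ j, (b.repr (t * w j)).support ⊆ S := fun j =>
    (Finset.subset_biUnion_of_mem (fun j => (b.repr (t * w j)).support)
      (Finset.mem_univ j)).trans Finset.subset_union_right
  -- coordinate identity
  have hcoord : ∀ i, (∑ j, (b.repr (w j) i) • c' j) = ∑ j, (b.repr (t * w j) i) • c j := by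
    intro i
    funext γ
    have h := congrArg (fun f => b.repr f i) (hid γ)
    simp only [Finset.mul_sum] at h
    simp only [map_sum, Finsupp.coe_finset_sum, Finset.sum_apply] at h
    have e1 : ∀ j, b.repr (w j * algebraMap (ZMod p) F (c' j γ)) i
        = b.repr (w j) i * c' j γ := by
      intro j
      rw [mul_comm (w j), ← Algebra.smul_def, map_smul, Finsupp.smul_apply, smul_eq_mul,
        mul_comm]
    have e2 : ∀ j, b.repr (t * (w j * algebraMap (ZMod p) F (c j γ))) i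
        = b.repr (t * w j) i * c j γ := by
      intro j
      rw [← mul_assoc, mul_comm (t * w j), ← Algebra.smul_def, map_smul, Finsupp.smul_apply,
        smul_eq_mul, mul_comm]
    simp only [e1, e2] at h
    simpa [Finset.sum_apply, Pi.smul_apply, smul_eq_mul] using h
  -- expand both sides
  have hL : (∑ j, w j ⊗ₜ[ℤ] κ (c' j) : F ⊗[ℤ] V)
      = ∑ i ∈ S, b i ⊗ₜ[ℤ] κ (∑ j, (b.repr (w j) i) • c' j) := by
    have : ∀ j, w j ⊗ₜ[ℤ] κ (c' j) = ∑ i ∈ S, b i ⊗ₜ[ℤ] ((b.repr (w j) i) • κ (c' j)) :=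
      fun j => M4c_tmul_eq_sum b (w j) (κ (c' j)) S (hS1 j)
    simp only [this]
    rw [Finset.sum_comm]
    refine Finset.sum_congr rfl fun i _ => ?_
    rw [(M4c_kappa_sum P κ hP0 hPadd hκadd c' hc' fun j => b.repr (w j) i).2,
      TensorProduct.tmul_sum]
  have hR : (t • ∑ j, w j ⊗ₜ[ℤ] κ (c j) : F ⊗[ℤ] V)
      = ∑ i ∈ S, b i ⊗ₜ[ℤ] κ (∑ j, (b.repr (t * w j) i) • c j) := by
    rw [Finset.smul_sum]
    have : ∀ j, t • (w j ⊗ₜ[ℤ] κ (c j) : F ⊗[ℤ] V)
        = ∑ i ∈ S, b i ⊗ₜ[ℤ] ((b.repr (t * w j) i) • κ (c j)) := by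
      intro j
      rw [TensorProduct.smul_tmul', smul_eq_mul]
      exact M4c_tmul_eq_sum b (t * w j) (κ (c j)) S (hS2 j)
    simp only [this]
    rw [Finset.sum_comm]
    refine Finset.sum_congr rfl fun i _ => ?_
    rw [(M4c_kappa_sum P κ hP0 hPadd hκadd c hc fun j => b.repr (t * w j) i).2,
      TensorProduct.tmul_sum]
  rw [hL, hR]
  refine Finset.sum_congr rfl fun i _ => ?_
  rw [hcoord i]

/-- Non-vanishing of the eigenclass. -/
theorem M4c_tensor_ne_zero
    (hκinj : ∀ c, P c → κ c = 0 → c = 0)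
    {n : ℕ} (w : Fin n → F) (c : Fin n → Γ → ZMod p)
    (hw : LinearIndependent (ZMod p) w) (hc : ∀ j, P (c j)) (hc0 : ∃ j, c j ≠ 0) :
    (∑ j, w j ⊗ₜ[ℤ] κ (c j) : F ⊗[ℤ] V) ≠ 0 := by
  classical
  intro hx
  obtain ⟨j0, hj0⟩ := hc0
  apply hj0
  apply hκinj _ (hc j0)
  -- a left inverse of `r ↦ ∑ r j • w j`
  let W : (Fin n → ZMod p) →ₗ[ZMod p] F := Fintype.linearCombination (ZMod p) w
  have hWinj : Function.Injective W := by
    rw [injective_iff_map_eq_zero]
    intro r hr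
    have h0 := Fintype.linearIndependent_iff.1 hw r (by
      simpa [W, Fintype.linearCombination_apply] using hr)
    funext i
    exact h0 i
  obtain ⟨L, hL⟩ := W.exists_leftInverse_of_injective (LinearMap.ker_eq_bot.2 hWinj)
  have hLw : ∀ j, L (w j) = Pi.single j 1 := by
    intro j
    have h1 : W (Pi.single j 1) = w j := by
      simp [W, Fintype.linearCombination_apply, Pi.single_apply]
    rw [← h1]
    exact LinearMap.congr_fun hL (Pi.single j 1)
  -- the functional `f ⊗ v ↦ (L f j0) • v`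
  let β : F →+ V →+ V :=
    { toFun := fun f => DistribSMul.toAddMonoidHom V (L f j0)
      map_zero' := by
        ext v
        simp
      map_add' := fun f f' => by
        ext v
        simp [add_smul] }
  have hβ : ∀ (r : ℤ) (f : F) (v : V), β (r • f) v = β f (r • v) := by
    intro r f v
    show L (r • f) j0 • v = L f j0 • (r • v)
    rw [map_zsmul, Pi.smul_apply, smul_assoc, smul_comm]
  let Φ : F ⊗[ℤ] V →+ V := TensorProduct.liftAddHom β hβ
  have hΦt : ∀ (f : F) (v : V), Φ (f ⊗ₜ[ℤ] v) = L f j0 • v := fun f v => rfl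
  have hΦ : Φ (∑ j, w j ⊗ₜ[ℤ] κ (c j)) = κ (c j0) := by
    rw [map_sum]
    simp only [hΦt, hLw]
    rw [Finset.sum_eq_single j0]
    · simp
    · intro j _ hj
      simp [hj.symm]
    · intro h
      exact absurd (Finset.mem_univ j0) h
  rw [hx, map_zero] at hΦ
  exact hΦ.symm

end Abstract

section Final

variable (N : ℕ)

theorem M4c_isParHom_zero {A : Type*} [AddCommGroup A] : IsParHom (0 : G0 N → A) :=
  ⟨fun _ _ => by simp, fun _ _ => rfl, fun _ _ _ _ => rfl⟩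

variable {N}

theorem M4c_isParHom_add {A : Type*} [AddCommGroup A] {c c' : G0 N → A}
    (h : IsParHom c) (h' : IsParHom c') : IsParHom (c + c') :=
  ⟨fun γ γ' => by
      simp only [Pi.add_apply, h.map_mul, h'.map_mul]
      abel,
    fun γ hγ => by simp only [Pi.add_apply, h.parabolic γ hγ, h'.parabolic γ hγ, add_zero],
    fun γ n hn hγ => by
      simp only [Pi.add_apply, h.elliptic γ n hn hγ, h'.elliptic γ n hn hγ, add_zero]⟩

variable (N) [NeZero N]

/-- PIECE `M4c`, with the conclusions of `M4a` (`hA`), `M4b` (`hB`) and `HCoh` (`hH`) as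
hypotheses; `t ℓ` plays the role of `ψ (a ℓ)`.  The Skeleton statement `exists_eigenclass` is
`M4c_exists_eigenclass_of N hp (fun ℓ => ψ (a ℓ)) (fun _ _ => exists_eigen_parHom N hg ψ a ha)
  (fun _ => exists_kummerMap N p) (fun ℓ hℓ hℓN c hc => isParHom_heckeCoh N hℓ hℓN hc)`. -/
theorem M4c_exists_eigenclass_of {p : ℕ} (hp : p.Prime) {F : Type} [Field F] [CharP F p]
    (t : ℕ → F)
    (hA : ∀ (_ : Fact p.Prime) (_ : Algebra (ZMod p) F),
      ∃ (n : ℕ) (w : Fin n → F) (c : Fin n → G0 N → ZMod p),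
        LinearIndependent (ZMod p) w ∧ (∀ j, IsParHom (c j)) ∧ (∃ j, c j ≠ 0) ∧
        ∀ ℓ : ℕ, ℓ.Prime → ¬ ℓ ∣ N * p → ∀ γ : G0 N,
          ∑ j, w j * algebraMap (ZMod p) F (heckeCoh N ℓ (c j) γ)
            = t ℓ * ∑ j, w j * algebraMap (ZMod p) F (c j γ))
    (hB : ∀ (_ : Fact p.Prime),
      ∃ κ : (G0 N → ZMod p) → Jp N p,
        (∀ c c', IsParHom c → IsParHom c' → κ (c + c') = κ c + κ c') ∧
        (∀ c, IsParHom c → κ c = 0 → c = 0) ∧
        (∀ ℓ : Nat.Primes, ¬ (ℓ : ℕ) ∣ N * p → ∀ c, IsParHom c →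
          κ (heckeCoh N ℓ c) = heckeJp N p ℓ (κ c)))
    (hH : ∀ ℓ : ℕ, ℓ.Prime → ¬ ℓ ∣ N → ∀ c : G0 N → ZMod p, IsParHom c →
      IsParHom (heckeCoh N ℓ c)) :
    ∃ x : F ⊗[ℤ] Jp N p, x ≠ 0 ∧ ∀ ℓ : Nat.Primes, ¬ (ℓ : ℕ) ∣ N * p →
      (heckeJp N p ℓ).baseChange F x = t ℓ • x := by
  classical
  haveI hpF : Fact p.Prime := ⟨hp⟩
  letI : Algebra (ZMod p) F := ZMod.algebra F p
  letI : Module (ZMod p) (Jp N p) := AddCommGroup.zmodModule (n := p) (fun x => by
    have hx := x.2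
    rw [Submodule.mem_torsionBy_iff] at hx
    apply Subtype.ext
    have h2 : ((p • x : Jp N p) : JZero N) = (p : ℤ) • (x : JZero N) := by
      rw [natCast_zsmul]
      exact Submodule.coe_smul_of_tower p x
    rw [h2, hx]
    rfl)
  obtain ⟨n, w, c, hw, hc, hc0, hid⟩ := hA hpF inferInstance
  obtain ⟨κ, hκadd, hκinj, hκT⟩ := hB hpF
  refine ⟨∑ j, w j ⊗ₜ[ℤ] κ (c j),
    M4c_tensor_ne_zero (fun c : G0 N → ZMod p => IsParHom c) κ hκinj w c hw hc hc0, ?_⟩
  intro ℓ hℓ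
  have hℓN : ¬ (ℓ : ℕ) ∣ N := fun h => hℓ (Dvd.dvd.mul_right h p)
  have hc' : ∀ j, IsParHom (heckeCoh N ℓ (c j)) := fun j => hH ℓ ℓ.2 hℓN (c j) (hc j)
  rw [map_sum]
  simp only [LinearMap.baseChange_tmul]
  have h1 : ∀ j, heckeJp N p ℓ (κ (c j)) = κ (heckeCoh N ℓ (c j)) := fun j =>
    (hκT ℓ hℓ (c j) (hc j)).symm
  simp only [h1]
  exact M4c_tensor_eigen (fun c : G0 N → ZMod p => IsParHom c) κ (M4c_isParHom_zero N)
    (fun c c' h h' => M4c_isParHom_add h h') hκadd w c (fun j => heckeCoh N ℓ (c j)) hc hc'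
    (t ℓ) (hid ℓ ℓ.2 hℓ)

end Final

end Fermat.Agent.S29
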