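/-
S29 row, PIECE `Alg` (helper92): `exists_two_dim_of_quadratic`, exact Skeleton statement.
Proof: `H92.exists_two_dim_of_quadratic` (Burnside + quadratic identity + minimal stable
subspace; dimension one handled by `ψ ⊕ d ψ⁻¹`), transported to `Fin 2 → k`.
Mathlib-only (does not need `Defs`).
-/
import Fermat.Agent.S29.H92.Assembly

set_option autoImplicit false

namespace Fermat.Agent.S29

open Polynomial

/-- PIECE `Alg` (pure algebra; Burnside + quadratic identity; G arbitrary group). -/
theorem exists_two_dim_of_quadratic {k : Type} [Field k] [IsAlgClosed k] {G : Type*} [Group G]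
    {M : Type} [AddCommGroup M] [Module k M] [Module.Finite k M] [Nontrivial M]
    (ρ : G →* Module.End k M) (d : G →* kˣ)
    (hex : ∀ g : G, ∃ a : k, ρ g * ρ g - a • ρ g + ((d g : kˣ) : k) • (1 : Module.End k M) = 0) :
    ∃ r : G →* Module.End k (Fin 2 → k),
      (∀ g : G, ρ g = 1 → d g = 1 → r g = 1) ∧
      ∀ (g : G) (a : k), ρ g * ρ g - a • ρ g + ((d g : kˣ) : k) • (1 : Module.End k M) = 0 →
        LinearMap.charpoly (r g) = X ^ 2 - C a * X + C ((d g : kˣ) : k) := by
  classical
  obtain ⟨V, iA, iM, iF, ρ', h2, hchar, hker⟩ :=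
    H92.exists_two_dim_of_quadratic ρ d
      (fun g a => ρ g * ρ g - a • ρ g + ((d g : kˣ) : k) • (1 : Module.End k M) = 0)
      hex (fun _ _ h => h)
  have hfin : Module.finrank k V = Module.finrank k (Fin 2 → k) := by
    rw [h2, Module.finrank_fin_fun]
  let e : V ≃ₗ[k] (Fin 2 → k) := LinearEquiv.ofFinrankEq V (Fin 2 → k) hfin
  refine ⟨(e.conjRingEquiv : Module.End k V →* Module.End k (Fin 2 → k)).comp ρ', ?_, ?_⟩
  · intro g hg hdg
    have := hker g hg hdg
    simp only [MonoidHom.comp_apply, this]
    exact map_one _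
  · intro g a hga
    have h := hchar g a hga
    have hconj : ((e.conjRingEquiv : Module.End k V →* Module.End k (Fin 2 → k)).comp ρ') g
        = e.conj (ρ' g) := rfl
    rw [hconj, LinearEquiv.charpoly_conj, h]

end Fermat.Agent.S29
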