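/-
S29 row, layer M, PIECE `M4c` core (helper89): pure linear algebra.
From the outputs of M4a (eigensystem in parabolic cohomology, in coordinates), M4b (Kummer map)
and HCoh (stability of parabolic characters), all taken as explicit hypotheses, build a nonzero
simultaneous eigenvector in `F ⊗[ℤ] J₀(N)[p]`.
-/
import Fermat.Agent.S29.DefsM

set_option autoImplicit false

namespace Fermat.Agent.S29

open scoped TensorProduct

namespace M4c

section Core

variable {p : ℕ} [Fact p.Prime] {F : Type*} [Field F] [Algebra (ZMod p) F]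
  {Q J : Type*} [AddCommGroup Q] [AddCommGroup J]

/-- In an algebra over `ZMod p`, scalar multiplication by `r` is integer multiplication by a lift. -/
theorem zmod_smul_eq_zsmul (r : ZMod p) (f : F) : r • f = ((r.val : ℕ) : ℤ) • f := by
  rw [Algebra.smul_def]
  conv_lhs => rw [← ZMod.natCast_zmod_val r]
  rw [map_natCast, zsmul_eq_mul]
  push_cast
  rfl

/-- Expansion of a pure tensor along coordinates. -/
theorem tmul_eq_sum {m : ℕ} (b : Fin m → F) (A : Fin m → ZMod p) (f : F)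
    (hf : f = ∑ k, A k • b k) (y : J) :
    f ⊗ₜ[ℤ] y = ∑ k, b k ⊗ₜ[ℤ] (((A k).val : ℤ) • y) := by
  rw [hf, TensorProduct.sum_tmul]
  refine Finset.sum_congr rfl fun k _ => ?_
  rw [zmod_smul_eq_zsmul, TensorProduct.smul_tmul]


/-- Evaluation of an integer combination. -/
theorem ev_sum_zsmul {n : ℕ} (e : Q →+ ZMod p) (A : Fin n → ZMod p) (c : Fin n → Q) :
    e (∑ j, ((A j).val : ℤ) • c j) = ∑ j, A j * e (c j) := by
  rw [map_sum]
  refine Finset.sum_congr rfl fun j _ => ?_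
  rw [map_zsmul, zsmul_eq_mul]
  push_cast
  rw [ZMod.natCast_zmod_val]

/-- The eigen-equation, abstractly: a pointwise identity of `F`-valued combinations of
`ZMod p`-valued "functions" lifts to the tensor product. -/
theorem core_eq {Γ : Type*} (κ : Q →+ J) (ev : Γ → Q →+ ZMod p)
    (hev : ∀ q : Q, (∀ γ, ev γ q = 0) → q = 0)
    {n : ℕ} (w : Fin n → F) (c c' : Fin n → Q) (lam : F)
    (heq : ∀ γ, ∑ j, w j * algebraMap (ZMod p) F (ev γ (c' j))
      = lam * ∑ j, w j * algebraMap (ZMod p) F (ev γ (c j))) :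
    ∑ j, w j ⊗ₜ[ℤ] κ (c' j) = lam • ∑ j, w j ⊗ₜ[ℤ] κ (c j) := by
  classical
  -- the finite-dimensional subspace spanned by the `w j` and the `lam * w j`
  set S : Set F := Set.range w ∪ Set.range (fun j => lam * w j) with hS
  have hSfin : S.Finite := (Set.finite_range _).union (Set.finite_range _)
  set W : Submodule (ZMod p) F := Submodule.span (ZMod p) S with hW
  have : FiniteDimensional (ZMod p) W := FiniteDimensional.span_of_finite (ZMod p) hSfin
  have hwW : ∀ j, w j ∈ W := fun j => Submodule.subset_span (Or.inl ⟨j, rfl⟩)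
  have hlW : ∀ j, lam * w j ∈ W := fun j => Submodule.subset_span (Or.inr ⟨j, rfl⟩)
  let b := Module.finBasis (ZMod p) W
  set m := Module.finrank (ZMod p) W with hm
  let A : Fin n → Fin m → ZMod p := fun j k => b.repr ⟨w j, hwW j⟩ k
  let A' : Fin n → Fin m → ZMod p := fun j k => b.repr ⟨lam * w j, hlW j⟩ k
  have hA : ∀ j, w j = ∑ k, A j k • (b k : F) := by
    intro j
    have := congrArg (fun x : W => (x : F)) (b.sum_repr ⟨w j, hwW j⟩)
    simp only [Submodule.coe_sum, Submodule.coe_smul] at this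
    exact this.symm
  have hA' : ∀ j, lam * w j = ∑ k, A' j k • (b k : F) := by
    intro j
    have := congrArg (fun x : W => (x : F)) (b.sum_repr ⟨lam * w j, hlW j⟩)
    simp only [Submodule.coe_sum, Submodule.coe_smul] at this
    exact this.symm
  -- coordinates of the pointwise identity
  have hcoord : ∀ k, ∑ j, ((A j k).val : ℤ) • c' j = ∑ j, ((A' j k).val : ℤ) • c j := by
    intro k
    rw [← sub_eq_zero]
    apply hev
    intro γ
    rw [map_sub, ev_sum_zsmul, ev_sum_zsmul, sub_eq_zero]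
    have h1 : (∑ j, ev γ (c' j) • (⟨w j, hwW j⟩ : W))
        = ∑ j, ev γ (c j) • (⟨lam * w j, hlW j⟩ : W) := by
      apply Subtype.ext
      simp only [Submodule.coe_sum, Submodule.coe_smul]
      have := heq γ
      rw [Finset.mul_sum] at this
      calc ∑ j, ev γ (c' j) • w j = ∑ j, w j * algebraMap (ZMod p) F (ev γ (c' j)) := by
            refine Finset.sum_congr rfl fun j _ => ?_
            rw [Algebra.smul_def, mul_comm]
        _ = ∑ j, lam * (w j * algebraMap (ZMod p) F (ev γ (c j))) := this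
        _ = ∑ j, ev γ (c j) • (lam * w j) := by
            refine Finset.sum_congr rfl fun j _ => ?_
            rw [Algebra.smul_def]; ring
    have h2 := congrArg (fun x : W => b.repr x k) h1
    simp only [map_sum, map_smul, Finsupp.coe_finsetSum, Finsupp.coe_smul, Finset.sum_apply,
      Pi.smul_apply, smul_eq_mul] at h2
    calc ∑ j, A j k * ev γ (c' j) = ∑ j, ev γ (c' j) * A j k := by
          refine Finset.sum_congr rfl fun j _ => mul_comm _ _
      _ = ∑ j, ev γ (c j) * A' j k := h2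
      _ = ∑ j, A' j k * ev γ (c j) := by
          refine Finset.sum_congr rfl fun j _ => mul_comm _ _
  -- expand both sides
  have hL : ∑ j, w j ⊗ₜ[ℤ] κ (c' j)
      = ∑ k, (b k : F) ⊗ₜ[ℤ] κ (∑ j, ((A j k).val : ℤ) • c' j) := by
    calc ∑ j, w j ⊗ₜ[ℤ] κ (c' j)
        = ∑ j, ∑ k, (b k : F) ⊗ₜ[ℤ] (((A j k).val : ℤ) • κ (c' j)) := by
          refine Finset.sum_congr rfl fun j _ => ?_
          exact tmul_eq_sum (fun k => (b k : F)) (A j) (w j) (hA j) _
      _ = ∑ k, ∑ j, (b k : F) ⊗ₜ[ℤ] (((A j k).val : ℤ) • κ (c' j)) := Finset.sum_comm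
      _ = ∑ k, (b k : F) ⊗ₜ[ℤ] κ (∑ j, ((A j k).val : ℤ) • c' j) := by
          refine Finset.sum_congr rfl fun k _ => ?_
          rw [map_sum, TensorProduct.tmul_sum]
          refine Finset.sum_congr rfl fun j _ => ?_
          rw [map_zsmul]
  have hR : lam • ∑ j, w j ⊗ₜ[ℤ] κ (c j)
      = ∑ k, (b k : F) ⊗ₜ[ℤ] κ (∑ j, ((A' j k).val : ℤ) • c j) := by
    calc lam • ∑ j, w j ⊗ₜ[ℤ] κ (c j)
        = ∑ j, (lam * w j) ⊗ₜ[ℤ] κ (c j) := by
          rw [Finset.smul_sum]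
          refine Finset.sum_congr rfl fun j _ => ?_
          rw [TensorProduct.smul_tmul', smul_eq_mul]
      _ = ∑ j, ∑ k, (b k : F) ⊗ₜ[ℤ] (((A' j k).val : ℤ) • κ (c j)) := by
          refine Finset.sum_congr rfl fun j _ => ?_
          exact tmul_eq_sum (fun k => (b k : F)) (A' j) (lam * w j) (hA' j) _
      _ = ∑ k, ∑ j, (b k : F) ⊗ₜ[ℤ] (((A' j k).val : ℤ) • κ (c j)) := Finset.sum_comm
      _ = ∑ k, (b k : F) ⊗ₜ[ℤ] κ (∑ j, ((A' j k).val : ℤ) • c j) := by
          refine Finset.sum_congr rfl fun k _ => ?_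
          rw [map_sum, TensorProduct.tmul_sum]
          refine Finset.sum_congr rfl fun j _ => ?_
          rw [map_zsmul]
  rw [hL, hR]
  refine Finset.sum_congr rfl fun k _ => ?_
  rw [hcoord k]


/-- Nonvanishing: a combination with `ZMod p`-independent coefficients and a nonzero vector. -/
theorem core_ne_zero (hJ : ∀ y : J, p • y = 0) {n : ℕ} (w : Fin n → F)
    (hw : LinearIndependent (ZMod p) w) (y : Fin n → J) (j₀ : Fin n) (hy : y j₀ ≠ 0) :
    ∑ j, w j ⊗ₜ[ℤ] y j ≠ 0 := by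
  classical
  let _ : Module (ZMod p) J := AddCommGroup.zmodModule hJ
  obtain ⟨φ, hφ⟩ := LinearMap.exists_extend ((Finsupp.lapply j₀).comp hw.repr)
  have hφw : ∀ j, φ (w j) = if j = j₀ then 1 else 0 := by
    intro j
    have h1 := congrArg (fun g => g ⟨w j, Submodule.subset_span ⟨j, rfl⟩⟩) hφ
    simp only [LinearMap.comp_apply, Submodule.subtype_apply, Finsupp.lapply_apply] at h1
    rw [h1, hw.repr_eq_single j _ rfl, Finsupp.single_apply]
  let B : F →+ J →+ J := AddMonoidHom.mk'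
    (fun f => AddMonoidHom.mk' (fun y => φ f • y) (fun y y' => smul_add _ y y'))
    (by
      intro f f'
      ext y
      simp only [AddMonoidHom.mk'_apply, AddMonoidHom.add_apply, map_add, add_smul])
  have hB : ∀ f y, B f y = φ f • y := fun f y => rfl
  let L : F ⊗[ℤ] J →+ J := TensorProduct.liftAddHom B (by
    intro r f y
    rw [hB, hB, map_zsmul, smul_assoc, smul_comm])
  have hL : ∀ f y, L (f ⊗ₜ[ℤ] y) = φ f • y := fun f y => rfl
  intro h0
  have h1 := congrArg L h0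
  rw [map_sum, map_zero] at h1
  simp only [hL, hφw, ite_smul, one_smul, zero_smul, Finset.sum_ite_eq', Finset.mem_univ,
    if_true] at h1
  exact hy h1

end Core


section Wrapper

open ModularCurve AlgebraicCurve

variable (N : ℕ) [NeZero N]

/-- `IsParHom` functions form an additive subgroup. -/
def parSubgroup (p : ℕ) : AddSubgroup (G0 N → ZMod p) where
  carrier := {c | IsParHom c}
  zero_mem' := by
    refine ⟨fun _ _ => ?_, fun _ _ => rfl, fun _ _ _ _ => rfl⟩
    simp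
  add_mem' := by
    intro c c' hc hc'
    refine ⟨fun γ γ' => ?_, fun γ h => ?_, fun γ n hn h => ?_⟩
    · simp only [Pi.add_apply, hc.map_mul, hc'.map_mul]; abel
    · simp only [Pi.add_apply, hc.parabolic γ h, hc'.parabolic γ h, add_zero]
    · simp only [Pi.add_apply, hc.elliptic γ n hn h, hc'.elliptic γ n hn h, add_zero]
  neg_mem' := by
    intro c hc
    refine ⟨fun γ γ' => ?_, fun γ h => ?_, fun γ n hn h => ?_⟩
    · simp only [Pi.neg_apply, hc.map_mul]; abel
    · simp only [Pi.neg_apply, hc.parabolic γ h, neg_zero]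
    · simp only [Pi.neg_apply, hc.elliptic γ n hn h, neg_zero]

omit [NeZero N] in
theorem mem_parSubgroup {p : ℕ} {c : G0 N → ZMod p} : c ∈ parSubgroup N p ↔ IsParHom c :=
  Iff.rfl

/-- PIECE `M4c`, with the statements of `M4a`, `M4b`, `HCoh` as explicit hypotheses. -/
theorem exists_eigenclass_of_parts {p : ℕ} [Fact p.Prime] {F : Type} [Field F]
    [Algebra (ZMod p) F] (lamSys : ℕ → F)
    (h4a : ∃ (n : ℕ) (w : Fin n → F) (c : Fin n → G0 N → ZMod p),
      LinearIndependent (ZMod p) w ∧ (∀ j, IsParHom (c j)) ∧ (∃ j, c j ≠ 0) ∧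
      ∀ ℓ : ℕ, ℓ.Prime → ¬ ℓ ∣ N * p → ∀ γ : G0 N,
        ∑ j, w j * algebraMap (ZMod p) F (heckeCoh N ℓ (c j) γ)
          = lamSys ℓ * ∑ j, w j * algebraMap (ZMod p) F (c j γ))
    (h4b : ∃ κ : (G0 N → ZMod p) → Jp N p,
      (∀ c c', IsParHom c → IsParHom c' → κ (c + c') = κ c + κ c') ∧
      (∀ c, IsParHom c → κ c = 0 → c = 0) ∧
      (∀ ℓ : Nat.Primes, ¬ (ℓ : ℕ) ∣ N * p → ∀ c, IsParHom c →
        κ (heckeCoh N ℓ c) = heckeJp N p ℓ (κ c)))
    (hcoh : ∀ ℓ : ℕ, ℓ.Prime → ¬ ℓ ∣ N → ∀ c : G0 N → ZMod p, IsParHom c →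
      IsParHom (heckeCoh N ℓ c)) :
    ∃ x : F ⊗[ℤ] Jp N p, x ≠ 0 ∧ ∀ ℓ : Nat.Primes, ¬ (ℓ : ℕ) ∣ N * p →
      (heckeJp N p ℓ).baseChange F x = lamSys ℓ • x := by
  obtain ⟨n, w, c, hw, hc, ⟨j₀, hj₀⟩, heq⟩ := h4a
  obtain ⟨κ, hκadd, hκinj, hκT⟩ := h4b
  -- the Kummer map as an additive map on the subgroup of parabolic characters
  let κ' : parSubgroup N p →+ Jp N p :=
    AddMonoidHom.mk' (fun q => κ q.1) (fun q q' => hκadd _ _ q.2 q'.2)
  have hκ' : ∀ q : parSubgroup N p, κ' q = κ q.1 := fun q => rfl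
  let ev : G0 N → parSubgroup N p →+ ZMod p := fun γ =>
    AddMonoidHom.mk' (fun q => q.1 γ) (fun q q' => rfl)
  have hev : ∀ q : parSubgroup N p, (∀ γ, ev γ q = 0) → q = 0 := by
    intro q hq
    apply Subtype.ext
    funext γ
    exact hq γ
  have hJ : ∀ y : Jp N p, p • y = 0 := by
    intro y
    apply Subtype.ext
    have := y.2
    rw [Submodule.mem_torsionBy_iff] at this
    rw [Submodule.coe_zero, ← this, ← natCast_zsmul]
    rfl
  refine ⟨∑ j, w j ⊗ₜ[ℤ] κ (c j), ?_, ?_⟩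
  · apply core_ne_zero hJ w hw (fun j => κ (c j)) j₀
    intro h0
    exact hj₀ (hκinj _ (hc j₀) h0)
  · intro ℓ hℓ
    have hℓN : ¬ (ℓ : ℕ) ∣ N := fun h => hℓ (Dvd.dvd.mul_right h p)
    have hc' : ∀ j, IsParHom (heckeCoh N ℓ (c j)) := fun j => hcoh ℓ ℓ.2 hℓN _ (hc j)
    have key := core_eq (F := F) κ' ev hev w (fun j => ⟨c j, hc j⟩)
      (fun j => ⟨heckeCoh N ℓ (c j), hc' j⟩) (lamSys ℓ) (fun γ => heq ℓ ℓ.2 hℓ γ)
    simp only [hκ'] at key
    rw [← key, map_sum]
    refine Finset.sum_congr rfl fun j _ => ?_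
    rw [LinearMap.baseChange_tmul, hκT ℓ hℓ _ (hc j)]


/-- The statement of sub-layer `M4a` (SkeletonM `exists_eigen_parHom`) as a `Prop`. -/
def M4aStatement : Prop :=
  ∀ {g : CuspForm (CongruenceSubgroup.Gamma0 N) 2} (_ : g.IsNormalizedEigenform) {p : ℕ}
    [Fact p.Prime] {F : Type} [Field F] [IsAlgClosed F] [CharP F p] [Algebra (ZMod p) F]
    (ψ : integralClosure ℤ ℂ →+* F) (a : ℕ → integralClosure ℤ ℂ)
    (_ : ∀ ℓ : ℕ, ℓ.Prime → ¬ ℓ ∣ N →
      ((a ℓ : integralClosure ℤ ℂ) : ℂ) = ModularFormClass.qCoeff g ℓ),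
    ∃ (n : ℕ) (w : Fin n → F) (c : Fin n → G0 N → ZMod p),
      LinearIndependent (ZMod p) w ∧ (∀ j, IsParHom (c j)) ∧ (∃ j, c j ≠ 0) ∧
      ∀ ℓ : ℕ, ℓ.Prime → ¬ ℓ ∣ N * p → ∀ γ : G0 N,
        ∑ j, w j * algebraMap (ZMod p) F (heckeCoh N ℓ (c j) γ)
          = ψ (a ℓ) * ∑ j, w j * algebraMap (ZMod p) F (c j γ)

/-- The statement of sub-layer `M4b` (SkeletonM `exists_kummerMap`) as a `Prop`. -/
def M4bStatement : Prop :=
  ∀ (p : ℕ) [Fact p.Prime],
    ∃ κ : (G0 N → ZMod p) → Jp N p,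
      (∀ c c', IsParHom c → IsParHom c' → κ (c + c') = κ c + κ c') ∧
      (∀ c, IsParHom c → κ c = 0 → c = 0) ∧
      (∀ ℓ : Nat.Primes, ¬ (ℓ : ℕ) ∣ N * p → ∀ c, IsParHom c →
        κ (heckeCoh N ℓ c) = heckeJp N p ℓ (κ c))

/-- The statement of piece `HCoh` (SkeletonM `isParHom_heckeCoh`) for `ZMod p`-valued
characters, as a `Prop`. -/
def HCohStatement : Prop :=
  ∀ {ℓ : ℕ} (_ : ℓ.Prime) (_ : ¬ ℓ ∣ N) {p : ℕ} {c : G0 N → ZMod p} (_ : IsParHom c),
    IsParHom (heckeCoh N ℓ c)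

/-- PIECE `M4c` in the exact SkeletonM shape, from the three statements it uses. -/
theorem exists_eigenclass_of_statements (h4a : M4aStatement N) (h4b : M4bStatement N)
    (hcoh : HCohStatement N)
    {g : CuspForm (CongruenceSubgroup.Gamma0 N) 2}
    (hg : g.IsNormalizedEigenform) {p : ℕ} (hp : p.Prime) {F : Type} [Field F] [IsAlgClosed F]
    [CharP F p] (ψ : integralClosure ℤ ℂ →+* F) (a : ℕ → integralClosure ℤ ℂ)
    (ha : ∀ ℓ : ℕ, ℓ.Prime → ¬ ℓ ∣ N →
      ((a ℓ : integralClosure ℤ ℂ) : ℂ) = ModularFormClass.qCoeff g ℓ) :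
    ∃ x : F ⊗[ℤ] Jp N p, x ≠ 0 ∧ ∀ ℓ : Nat.Primes, ¬ (ℓ : ℕ) ∣ N * p →
      (heckeJp N p ℓ).baseChange F x = ψ (a ℓ) • x := by
  have : Fact p.Prime := ⟨hp⟩
  let _ : Algebra (ZMod p) F := ZMod.algebra F p
  exact exists_eigenclass_of_parts N (fun ℓ => ψ (a ℓ)) (h4a hg ψ a ha) (h4b p)
    (fun ℓ hℓ hℓN c hc => hcoh hℓ hℓN hc)

end Wrapper

end M4c

end Fermat.Agent.S29
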