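/-
S29 row — PIECE `Res` (helper809): `φ : ℤ̄ →+* k`, `k` a field of characteristic `p`, factors through
the algebraically closed field `ℤ̄ ⧸ ker φ` of characteristic `p`.
Exact statement of helper269's Skeleton @62381e5.  Mathlib-only; namespace `Fermat.Agent.S29`.
-/
import Mathlib

set_option autoImplicit false
set_option linter.style.haveILetI false

namespace Fermat.Agent.S29

open Polynomial

/-- `Res` helper: the kernel of a ring hom from `ℤ̄` to a field of characteristic `p` is maximal. -/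
theorem Res_ker_isMaximal {p : ℕ} (hp : p.Prime) {k : Type} [Field k] [CharP k p]
    (φ : integralClosure ℤ ℂ →+* k) : (RingHom.ker φ).IsMaximal := by
  have hprime : (RingHom.ker φ).IsPrime := RingHom.ker_isPrime φ
  have hcomap : ((RingHom.ker φ).comap (algebraMap ℤ (integralClosure ℤ ℂ))).IsMaximal := by
    have : ((RingHom.ker φ).comap (algebraMap ℤ (integralClosure ℤ ℂ))).IsPrime :=
      Ideal.comap_isPrime _ _
    refine Ideal.IsPrime.isMaximal inferInstance ?_
    intro hbot
    have hmem : (p : ℤ) ∈ (RingHom.ker φ).comap (algebraMap ℤ (integralClosure ℤ ℂ)) := by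
      rw [Ideal.mem_comap, RingHom.mem_ker]
      simp
    rw [hbot, Ideal.mem_bot] at hmem
    exact hp.ne_zero (by exact_mod_cast hmem)
  exact Ideal.isMaximal_of_isIntegral_of_isMaximal_comap (R := ℤ) (RingHom.ker φ) hcomap

/-- `Res` helper: every monic polynomial over `ℤ̄` has a root in `ℤ̄`. -/
theorem Res_exists_root_of_monic (f : (integralClosure ℤ ℂ)[X]) (hf : f.Monic)
    (hdeg : f.degree ≠ 0) : ∃ x : integralClosure ℤ ℂ, f.eval x = 0 := by
  have hmap : (f.map (algebraMap (integralClosure ℤ ℂ) ℂ)).degree ≠ 0 := by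
    rwa [hf.degree_map]
  obtain ⟨z, hz⟩ := IsAlgClosed.exists_root (f.map (algebraMap (integralClosure ℤ ℂ) ℂ)) hmap
  have hz' : Polynomial.eval₂ (algebraMap (integralClosure ℤ ℂ) ℂ) z f = 0 := by
    rwa [Polynomial.IsRoot.def, Polynomial.eval_map] at hz
  have hint : IsIntegral (integralClosure ℤ ℂ) z := ⟨f, hf, hz'⟩
  have hintZ : IsIntegral ℤ z := isIntegral_trans (R := ℤ) (A := integralClosure ℤ ℂ) z hint
  have hmem : z ∈ integralClosure ℤ ℂ := hintZ
  refine ⟨⟨z, hmem⟩, ?_⟩
  have hinj : Function.Injective (algebraMap (integralClosure ℤ ℂ) ℂ) := Subtype.val_injective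
  apply hinj
  rw [map_zero, ← Polynomial.eval₂_at_apply]
  exact hz'

/-- PIECE `Res` (`φ` factors through an algebraically closed field of characteristic `p`,
namely `ℤ̄ ⧸ ker φ ≅ 𝔽̄_p`). -/
theorem exists_algClosed_factor {p : ℕ} (hp : p.Prime) {k : Type} [Field k] [CharP k p]
    (φ : integralClosure ℤ ℂ →+* k) :
    ∃ (F : Type) (_ : Field F) (_ : IsAlgClosed F) (_ : CharP F p)
      (ψ : integralClosure ℤ ℂ →+* F) (ι : F →+* k), ι.comp ψ = φ := by
  have hmax : (RingHom.ker φ).IsMaximal := Res_ker_isMaximal hp φ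
  letI : Field (integralClosure ℤ ℂ ⧸ RingHom.ker φ) := Ideal.Quotient.field (RingHom.ker φ)
  let ι : (integralClosure ℤ ℂ ⧸ RingHom.ker φ) →+* k := RingHom.kerLift φ
  have hι : Function.Injective ι := RingHom.kerLift_injective φ
  have hchar : CharP (integralClosure ℤ ℂ ⧸ RingHom.ker φ) p := RingHom.charP ι hι p
  have hclosed : IsAlgClosed (integralClosure ℤ ℂ ⧸ RingHom.ker φ) := by
    refine IsAlgClosed.of_exists_root _ ?_
    intro q hq hirr
    obtain ⟨f, hf, hfdeg, hfmonic⟩ :=
      Polynomial.lifts_and_degree_eq_and_monic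
        (f := Ideal.Quotient.mk (RingHom.ker φ))
        ((Polynomial.mem_lifts _).2
          (Polynomial.map_surjective _ Ideal.Quotient.mk_surjective q)) hq
    have hdeg : f.degree ≠ 0 := by
      rw [hfdeg]
      exact (Polynomial.degree_pos_of_irreducible hirr).ne'
    obtain ⟨x, hx⟩ := Res_exists_root_of_monic f hfmonic hdeg
    refine ⟨Ideal.Quotient.mk (RingHom.ker φ) x, ?_⟩
    rw [← hf, Polynomial.eval_map, Polynomial.eval₂_at_apply, hx, map_zero]
  refine ⟨integralClosure ℤ ℂ ⧸ RingHom.ker φ, inferInstance, hclosed, hchar,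
    Ideal.Quotient.mk (RingHom.ker φ), ι, ?_⟩
  ext a
  rfl

end Fermat.Agent.S29
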