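import Fermat.Agent.S29.Gate
import Fermat.Agent.S18.Mod.H216.NodeMod
import Fermat.Agent.S18.H438.NodeAlg

/-!
# S29 — PLAIN CHAIN TOP (helper42, squad-lead S29/S42)

`Fermat.Agent.S29.result_top` is the statement of frozen S29, proved exactly as
`Fermat.Agent.S29.result`, but in a module that is NOT a statement module: consumers import
`Fermat.Agent.S29.Top` instead of `Fermat.Agent.S29` (lead ruling: plain files import chain
tops, never `SNN.lean`).  Same closure as `S29.lean` minus `Fermat.Statements.S29`.
-/

set_option autoImplicit false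
open CuspForm CuspForm.IsNormalizedEigenform

namespace Fermat.Agent.S29

/-- Frozen S29, plain top: a normalised weight-2 eigenform on `Γ₀(N)` has an attached mod-`p`
Galois representation, unramified outside `N p`. -/
theorem result_top
    {N : ℕ} {g : CuspForm (CongruenceSubgroup.Gamma0 N) 2} (hg : g.IsNormalizedEigenform)
    {p : ℕ} (hp : p.Prime) {k : Type} [Field k] [CharP k p]
    (φ : integralClosure ℤ ℂ →+* k) :
    ∃ ρ : ResidualGaloisRep k, ρ.IsAttachedTo g φ ∧
      ∀ ℓ : ℕ, ℓ.Prime → ¬ ℓ ∣ N * p → ρ.IsUnramifiedAt ℓ :=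
  S29_of_nodes (fun M _ _ _ hℓM A hA => Fermat.Agent.S18.Mod.H216.node_mod M hℓM A hA)
    (fun M => Fermat.Agent.S18.H438.node_alg M) hg hp φ

end Fermat.Agent.S29
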